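/-
GATE-N / S48-G3-LEVELGLUE (helper16): **level glue between (N5) and (N3)** — gap (g3) of GRAPH v1.

`f : CuspForm (Gamma1 N) 1` (the form of the frozen S48), `G : ModularForm (Gamma1 l) 1` (the
normalised weight-one Eisenstein series `E_{1,ω⁻¹}`).  Mathlib only.

* `mfRestrict`, `cfRestrict` : a modular / cusp form for `Γ` is one for every `Γ' ≤ Γ`
  (same function, same `q`-expansion);
* `Gamma1_mul_le_left`, `Gamma1_mul_le_right` : `Γ₁(N l) ≤ Γ₁(N)`, `Γ₁(N l) ≤ Γ₁(l)`, and the same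
  for the images in `GL₂(ℝ)` (the coercion Mathlib inserts in `CuspForm (Gamma1 N) k`);
* `mulLevel f G : CuspForm (Gamma1 (N * l)) 2`, `coe_mulLevel : ⇑(mulLevel f G) = ⇑f * ⇑G`;
* `qExpansion_mulLevel : qExpansion 1 (mulLevel f G) = qExpansion 1 f * qExpansion 1 G`,
  `qCoeff_mulLevel` (Cauchy product);
* `qExpansion_cfRestrict`, `qCoeff_levelUp` : raising the level does not change `q`-coefficients;
* **`qCoeff_mulLevel_sub_mem`** : if the coefficients of `f` lie in a subring `R`, `I` is an additive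
  subgroup stable under multiplication by `R`, and `G ≡ 1 mod I` coefficientwise, then
  `f · G ≡ f mod I` coefficientwise  (the congruence `f E_{1,ω⁻¹} ≡ f mod λ` of Deligne–Serre §6).
-/
import Mathlib
import Fermat.Prelude.Def_FLTPrelim_Modularity

set_option autoImplicit false

noncomputable section

namespace Fermat.Agent.DS.Glue

open CongruenceSubgroup UpperHalfPlane ModularFormClass Matrix.SpecialLinearGroup
open scoped MatrixGroups

/-! ### Restriction to a smaller group -/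

section Restrict

variable {Γ Γ' : Subgroup (GL (Fin 2) ℝ)} {k : ℤ}

/-- a modular form for `Γ` is a modular form for every `Γ' ≤ Γ` -/
def mfRestrict (h : Γ' ≤ Γ) (f : ModularForm Γ k) : ModularForm Γ' k where
  toFun := f
  slash_action_eq' γ hγ := f.slash_action_eq' γ (h hγ)
  holo' := f.holo'
  bdd_at_cusps' hc := f.bdd_at_cusps' (hc.mono h)

/-- a cusp form for `Γ` is a cusp form for every `Γ' ≤ Γ` -/
def cfRestrict (h : Γ' ≤ Γ) (f : CuspForm Γ k) : CuspForm Γ' k where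
  toFun := f
  slash_action_eq' γ hγ := f.slash_action_eq' γ (h hγ)
  holo' := f.holo'
  zero_at_cusps' hc := f.zero_at_cusps' (hc.mono h)

@[simp] theorem coe_mfRestrict (h : Γ' ≤ Γ) (f : ModularForm Γ k) :
    (mfRestrict h f : ℍ → ℂ) = f := rfl

@[simp] theorem coe_cfRestrict (h : Γ' ≤ Γ) (f : CuspForm Γ k) :
    (cfRestrict h f : ℍ → ℂ) = f := rfl

theorem qExpansion_mfRestrict (h : Γ' ≤ Γ) (f : ModularForm Γ k) (w : ℝ) :
    qExpansion w (mfRestrict h f) = qExpansion w f := rfl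

theorem qExpansion_cfRestrict (h : Γ' ≤ Γ) (f : CuspForm Γ k) (w : ℝ) :
    qExpansion w (cfRestrict h f) = qExpansion w f := rfl

theorem qCoeff_mfRestrict (h : Γ' ≤ Γ) (f : ModularForm Γ k) (n : ℕ) :
    qCoeff (mfRestrict h f) n = qCoeff f n := rfl

theorem qCoeff_cfRestrict (h : Γ' ≤ Γ) (f : CuspForm Γ k) (n : ℕ) :
    qCoeff (cfRestrict h f) n = qCoeff f n := rfl

end Restrict

/-! ### `Γ₁(N l) ≤ Γ₁(N), Γ₁(l)` -/

section Levels

theorem intCast_zmod_eq_of_dvd {N M : ℕ} (h : N ∣ M) {a b : ℤ}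
    (hab : (a : ZMod M) = (b : ZMod M)) : (a : ZMod N) = (b : ZMod N) := by
  rw [ZMod.intCast_eq_intCast_iff_dvd_sub] at hab ⊢
  exact (Int.natCast_dvd_natCast.mpr h).trans hab

theorem Gamma1_le_of_dvd {N M : ℕ} (h : N ∣ M) : Gamma1 M ≤ Gamma1 N := by
  intro γ hγ
  rw [Gamma1_mem] at hγ ⊢
  obtain ⟨h1, h2, h3⟩ := hγ
  refine ⟨?_, ?_, ?_⟩
  · have := intCast_zmod_eq_of_dvd h (a := γ 0 0) (b := 1) (by simpa using h1)
    simpa using this
  · have := intCast_zmod_eq_of_dvd h (a := γ 1 1) (b := 1) (by simpa using h2)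
    simpa using this
  · have := intCast_zmod_eq_of_dvd h (a := γ 1 0) (b := 0) (by simpa using h3)
    simpa using this

theorem Gamma1_mul_le_left (N l : ℕ) : Gamma1 (N * l) ≤ Gamma1 N :=
  Gamma1_le_of_dvd (dvd_mul_right N l)

theorem Gamma1_mul_le_right (N l : ℕ) : Gamma1 (N * l) ≤ Gamma1 l :=
  Gamma1_le_of_dvd (dvd_mul_left l N)

/-- the same for the images in `GL₂(ℝ)` -/
theorem Gamma1GL_le_of_dvd {N M : ℕ} (h : N ∣ M) :
    (Gamma1 M : Subgroup (GL (Fin 2) ℝ)) ≤ (Gamma1 N : Subgroup (GL (Fin 2) ℝ)) :=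
  Subgroup.map_mono (Gamma1_le_of_dvd h)

theorem one_mem_strictPeriods_Gamma1 (N : ℕ) :
    (1 : ℝ) ∈ (Gamma1 N : Subgroup (GL (Fin 2) ℝ)).strictPeriods := by
  rw [CongruenceSubgroup.strictPeriods_Gamma1]
  exact AddSubgroup.mem_zmultiples 1

end Levels

/-! ### Raising the level, and the product `f · G` -/

section Product

variable {N l : ℕ}

/-- `f` at level `M`, `N ∣ M` -/
def cfLevelUp {M : ℕ} (h : N ∣ M) {k : ℤ} (f : CuspForm (Gamma1 N) k) : CuspForm (Gamma1 M) k :=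
  cfRestrict (Gamma1GL_le_of_dvd h) f

/-- `G` at level `M`, `l ∣ M` -/
def mfLevelUp {M : ℕ} (h : l ∣ M) {k : ℤ} (G : ModularForm (Gamma1 l) k) :
    ModularForm (Gamma1 M) k :=
  mfRestrict (Gamma1GL_le_of_dvd h) G

@[simp] theorem coe_cfLevelUp {M : ℕ} (h : N ∣ M) {k : ℤ} (f : CuspForm (Gamma1 N) k) :
    (cfLevelUp h f : ℍ → ℂ) = f := rfl

@[simp] theorem coe_mfLevelUp {M : ℕ} (h : l ∣ M) {k : ℤ} (G : ModularForm (Gamma1 l) k) :
    (mfLevelUp h G : ℍ → ℂ) = G := rfl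

theorem qCoeff_levelUp {M : ℕ} (h : N ∣ M) {k : ℤ} (f : CuspForm (Gamma1 N) k) (n : ℕ) :
    qCoeff (cfLevelUp h f) n = qCoeff f n := rfl

/-- **`f · G ∈ S_{k₁+k₂}(Γ₁(N l))`** -/
def mulLevelGen {k₁ k₂ : ℤ} (f : CuspForm (Gamma1 N) k₁) (G : ModularForm (Gamma1 l) k₂) :
    CuspForm (Gamma1 (N * l)) (k₁ + k₂) :=
  (cfLevelUp (dvd_mul_right N l) f).mulModularForm (mfLevelUp (dvd_mul_left l N) G)

/-- **`f · G ∈ S₂(Γ₁(N l))`** for `f ∈ S₁(Γ₁(N))`, `G ∈ M₁(Γ₁(l))` -/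
def mulLevel (f : CuspForm (Gamma1 N) 1) (G : ModularForm (Gamma1 l) 1) :
    CuspForm (Gamma1 (N * l)) 2 :=
  CuspForm.mcast (by norm_num) (mulLevelGen f G)

theorem coe_mulLevelGen {k₁ k₂ : ℤ} (f : CuspForm (Gamma1 N) k₁) (G : ModularForm (Gamma1 l) k₂) :
    (mulLevelGen f G : ℍ → ℂ) = (f : ℍ → ℂ) * (G : ℍ → ℂ) := rfl

theorem coe_mulLevel (f : CuspForm (Gamma1 N) 1) (G : ModularForm (Gamma1 l) 1) :
    (mulLevel f G : ℍ → ℂ) = (f : ℍ → ℂ) * (G : ℍ → ℂ) := rfl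

theorem mulLevel_apply (f : CuspForm (Gamma1 N) 1) (G : ModularForm (Gamma1 l) 1) (τ : ℍ) :
    mulLevel f G τ = f τ * G τ := rfl

/-- the `q`-expansion of the product is the product of the `q`-expansions -/
theorem qExpansion_mulLevelGen {k₁ k₂ : ℤ} (f : CuspForm (Gamma1 N) k₁)
    (G : ModularForm (Gamma1 l) k₂) :
    qExpansion 1 (mulLevelGen f G) = qExpansion 1 f * qExpansion 1 G := by
  have h := ModularForm.qExpansion_mul_coe (Γ := (Gamma1 (N * l) : Subgroup (GL (Fin 2) ℝ)))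
    one_pos (one_mem_strictPeriods_Gamma1 (N * l)) (cfLevelUp (dvd_mul_right N l) f)
    (mfLevelUp (dvd_mul_left l N) G)
  exact h

theorem qExpansion_mulLevel (f : CuspForm (Gamma1 N) 1) (G : ModularForm (Gamma1 l) 1) :
    qExpansion 1 (mulLevel f G) = qExpansion 1 f * qExpansion 1 G :=
  qExpansion_mulLevelGen f G

/-- Cauchy product formula for the coefficients -/
theorem qCoeff_mulLevel (f : CuspForm (Gamma1 N) 1) (G : ModularForm (Gamma1 l) 1) (n : ℕ) :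
    qCoeff (mulLevel f G) n =
      ∑ p ∈ Finset.HasAntidiagonal.antidiagonal n, qCoeff f p.1 * qCoeff G p.2 := by
  rw [qCoeff, qExpansion_mulLevel, PowerSeries.coeff_mul]
  rfl

end Product

/-! ### The congruence `f · G ≡ f` -/

section Congruence

/-- power series form: `B ≡ 1 mod I` coefficientwise, coefficients of `A` in `R`, `R · I ⊆ I`
⟹ `A B ≡ A mod I` coefficientwise -/
theorem coeff_mul_sub_mem (R : Subring ℂ) (I : AddSubgroup ℂ)
    (hI : ∀ a ∈ R, ∀ x ∈ I, a * x ∈ I) (A B : PowerSeries ℂ)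
    (hA : ∀ n, PowerSeries.coeff n A ∈ R)
    (hB0 : PowerSeries.coeff 0 B - 1 ∈ I) (hB : ∀ n, 1 ≤ n → PowerSeries.coeff n B ∈ I) (n : ℕ) :
    PowerSeries.coeff n (A * B) - PowerSeries.coeff n A ∈ I := by
  have h1 : A * B - A = A * (B - 1) := by ring
  have h2 : PowerSeries.coeff n (A * B) - PowerSeries.coeff n A =
      PowerSeries.coeff n (A * (B - 1)) := by
    rw [← h1, map_sub]
  rw [h2, PowerSeries.coeff_mul]
  refine I.sum_mem fun p _ => hI _ (hA p.1) _ ?_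
  rw [map_sub, PowerSeries.coeff_one]
  split_ifs with h0
  · rw [h0]
    exact hB0
  · rw [sub_zero]
    exact hB p.2 (Nat.one_le_iff_ne_zero.2 h0)

variable {N l : ℕ}

/-- **`f · G ≡ f mod I` coefficientwise** when `G ≡ 1 mod I` coefficientwise -/
theorem qCoeff_mulLevel_sub_mem (R : Subring ℂ) (I : AddSubgroup ℂ)
    (hI : ∀ a ∈ R, ∀ x ∈ I, a * x ∈ I)
    (f : CuspForm (Gamma1 N) 1) (G : ModularForm (Gamma1 l) 1)
    (hf : ∀ n, qCoeff f n ∈ R)
    (hG0 : qCoeff G 0 - 1 ∈ I) (hG : ∀ n, 1 ≤ n → qCoeff G n ∈ I) (n : ℕ) :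
    qCoeff (mulLevel f G) n - qCoeff f n ∈ I := by
  have h := coeff_mul_sub_mem R I hI (qExpansion 1 f) (qExpansion 1 G) hf hG0 hG n
  rw [← qExpansion_mulLevel] at h
  exact h

/-- the coefficients of the product stay in the ring generated by those of `f` and `G` -/
theorem qCoeff_mulLevel_mem (R : Subring ℂ)
    (f : CuspForm (Gamma1 N) 1) (G : ModularForm (Gamma1 l) 1)
    (hf : ∀ n, qCoeff f n ∈ R) (hG : ∀ n, qCoeff G n ∈ R) (n : ℕ) :
    qCoeff (mulLevel f G) n ∈ R := by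
  rw [qCoeff_mulLevel]
  exact R.sum_mem fun p _ => R.mul_mem (hf p.1) (hG p.2)

end Congruence

end Fermat.Agent.DS.Glue
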